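import Fermat.Agent.PolyaCarlson.Main
import Mathlib.Data.Nat.Prime.Infinite

/-!
# Szegő's theorem and the series of the primes
-/

set_option autoImplicit false

noncomputable section

open Polynomial Finset
open scoped Topology

namespace Fermat.Agent.PolyaCarlson

theorem summable_of_finite_range {a : ℕ → ℤ} (hfin : (Set.range a).Finite) (r : ℝ) (hr : 0 ≤ r)
    (hr1 : r < 1) : Summable fun n => |(a n : ℝ)| * r ^ n := by
  obtain ⟨B, hB⟩ := (hfin.image fun i : ℤ => |(i : ℝ)|).bddAbove
  refine Summable.of_nonneg_of_le (fun n => by positivity) (fun n => ?_)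
    ((summable_geometric_of_lt_one hr hr1).mul_left B)
  exact mul_le_mul_of_nonneg_right
    (hB ⟨a n, Set.mem_range_self n, rfl⟩) (pow_nonneg hr n)

theorem not_periodic_prime {N T : ℕ} (hT : 0 < T)
    (h : ∀ n, N ≤ n → (if (n + T).Prime then (1 : ℤ) else 0) = if n.Prime then 1 else 0) :
    False := by
  obtain ⟨p, hpN, hp⟩ := Nat.exists_infinite_primes N
  have hper : ∀ j, (p + j * T).Prime := fun j => by
    induction j with
    | zero => simpa using hp
    | succ j ih =>
      have h1 := h (p + j * T) (hpN.trans (Nat.le_add_right _ _))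
      rw [if_pos ih, show p + j * T + T = p + (j + 1) * T by ring] at h1
      by_contra h2
      rw [if_neg h2] at h1
      exact zero_ne_one h1
  have h2 := hper p
  rw [show p + p * T = p * (1 + T) by ring, Nat.prime_mul_iff] at h2
  rcases h2 with ⟨_, h2⟩ | ⟨_, h2⟩
  · omega
  · exact hp.ne_one h2

end Fermat.Agent.PolyaCarlson
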