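import Fermat.Agent.PolyaCarlson.Small
import Mathlib.Analysis.Complex.CauchyIntegral
import Mathlib.Analysis.Calculus.Deriv.Polynomial
import Mathlib.Analysis.Complex.LocallyUniformLimit
import Mathlib.Analysis.SpecialFunctions.Integrals.Basic
import Mathlib.MeasureTheory.Integral.DominatedConvergence

/-!
# Moving the contour through a point of analytic continuation
-/

set_option autoImplicit false

noncomputable section

open Polynomial Finset Filter MeasureTheory
open scoped Topology ComplexConjugate Real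

namespace Fermat.Agent.PolyaCarlson

variable {b : ℕ → ℂ} (hb : ∀ r : ℝ, 0 ≤ r → r < 1 → Summable fun n => ‖b n‖ * r ^ n)

include hb in
theorem hasSum_series {z : ℂ} (hz : ‖z‖ < 1) :
    HasSum (fun n => b n * z ^ n) (∑' n, b n * z ^ n) := by
  refine (Summable.of_norm ?_).hasSum
  simpa [norm_mul, norm_pow] using hb ‖z‖ (norm_nonneg z) hz

include hb in
theorem differentiableOn_series :
    DifferentiableOn ℂ (fun z => ∑' n, b n * z ^ n) (Metric.ball 0 1) := by
  intro z hz
  rw [mem_ball_zero_iff] at hz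
  obtain ⟨r, hzr, hr⟩ := exists_between hz
  have h : DifferentiableOn ℂ (fun w => ∑' n, b n * w ^ n) (Metric.ball 0 r) := by
    refine Complex.differentiableOn_tsum_of_summable_norm
      (hb r ((norm_nonneg z).trans hzr.le) hr) (fun i => by fun_prop) Metric.isOpen_ball
      fun i w hw => ?_
    rw [norm_mul, norm_pow]
    exact mul_le_mul_of_nonneg_left
      (pow_le_pow_left₀ (norm_nonneg w) (mem_ball_zero_iff.1 hw).le i) (norm_nonneg _)
  exact ((h.differentiableAt (Metric.isOpen_ball.mem_nhds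
    (mem_ball_zero_iff.2 hzr)))).differentiableWithinAt

theorem integral_circle_exp (k : ℤ) (a : ℝ) :
    ∫ y : ℝ in a..(a + 2 * π), Complex.exp (k * Complex.I * y) =
      if k = 0 then (2 * π : ℂ) else 0 := by
  split_ifs with hk
  · subst hk
    simp
  · rw [integral_exp_mul_complex (by simp [hk, Complex.I_ne_zero])]
    rw [div_eq_zero_iff]
    left
    rw [sub_eq_zero, Complex.ofReal_add, mul_add, Complex.exp_add]
    have h : Complex.exp ((k : ℂ) * Complex.I * ((2 * π : ℝ) : ℂ)) = 1 := by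
      rw [← Complex.exp_int_mul_two_pi_mul_I k]
      push_cast
      ring_nf
    rw [h, mul_one]

include hb in
/-- The coefficients as integrals over a vertical segment in the logarithmic variable. -/
theorem coeff_integral {ε : ℝ} (hε : 0 < ε) (N : ℕ) (a : ℝ) :
    ∫ y : ℝ in a..(a + 2 * π), (∑' n, b n * Complex.exp (-ε + y * Complex.I) ^ n) *
        Complex.exp (-(-ε + y * Complex.I)) ^ N = 2 * π * b N := by
  set r := Real.exp (-ε)
  have hr : r < 1 := Real.exp_lt_one_iff.2 (by linarith)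
  have hn : ∀ y : ℝ, ‖Complex.exp (-ε + y * Complex.I)‖ = r := fun y => by
    rw [Complex.norm_exp]; simp [r]
  have hn' : ∀ y : ℝ, ‖Complex.exp (-(-ε + y * Complex.I))‖ = Real.exp ε := fun y => by
    rw [Complex.norm_exp]; simp
  set F : ℕ → ℝ → ℂ := fun n y => b n * Complex.exp (-ε + y * Complex.I) ^ n *
    Complex.exp (-(-ε + y * Complex.I)) ^ N
  have hsum : Summable fun n => ‖b n‖ * r ^ n * Real.exp ε ^ N :=
    (hb r (Real.exp_pos _).le hr).mul_right _
  have h := intervalIntegral.hasSum_integral_of_dominated_convergence (a := a) (b := a + 2 * π)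
    (μ := volume) (F := F) (fun n _ => ‖b n‖ * r ^ n * Real.exp ε ^ N)
    (fun n => (by fun_prop : Continuous (F n)).aestronglyMeasurable)
    (fun n => Filter.Eventually.of_forall fun y _ => le_of_eq (by
      simp only [F, norm_mul, norm_pow, hn, hn']))
    (Filter.Eventually.of_forall fun y _ => hsum) intervalIntegrable_const
    (Filter.Eventually.of_forall fun y _ => (hasSum_series hb (by rw [hn]; exact hr)).mul_right _)
  rw [← h.tsum_eq, tsum_eq_single N]
  · rw [show (fun y => F N y) = fun _ => b N from funext fun y => by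
      simp only [F]
      rw [mul_assoc, ← mul_pow, ← Complex.exp_add, add_neg_cancel, Complex.exp_zero, one_pow,
        mul_one]]
    rw [intervalIntegral.integral_const, add_sub_cancel_left, Complex.real_smul]
    push_cast
    ring
  · intro n hnN
    rw [show (fun y => F n y) = fun y : ℝ => b n * Complex.exp (-(((n : ℤ) - N : ℤ) : ℂ) * ε) *
        Complex.exp ((((n : ℤ) - N : ℤ) : ℂ) * Complex.I * y) from funext fun y => by
      simp only [F]
      rw [← Complex.exp_nat_mul, ← Complex.exp_nat_mul, mul_assoc, ← Complex.exp_add, mul_assoc,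
        ← Complex.exp_add]
      push_cast
      ring_nf]
    rw [intervalIntegral.integral_const_mul, integral_circle_exp,
      if_neg (sub_ne_zero.2 (by exact_mod_cast hnN)), mul_zero]

/-- The linear functional of the coefficients. -/
def moment (b : ℕ → ℂ) (P : ℂ[X]) : ℂ :=
  P.sum fun k c => c * b k

theorem moment_add (P Q : ℂ[X]) : moment b (P + Q) = moment b P + moment b Q :=
  Polynomial.sum_add_index P Q _ (fun _ => zero_mul _) fun _ _ _ => add_mul _ _ _

theorem moment_monomial (k : ℕ) (c : ℂ) : moment b (Polynomial.monomial k c) = c * b k :=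
  Polynomial.sum_monomial_index c _ (zero_mul _)

include hb in
theorem moment_integral {ε : ℝ} (hε : 0 < ε) (a : ℝ) (P : ℂ[X]) :
    ∫ y : ℝ in a..(a + 2 * π), (∑' n, b n * Complex.exp (-ε + y * Complex.I) ^ n) *
        P.eval (Complex.exp (-(-ε + y * Complex.I))) = 2 * π * moment b P := by
  have hc : Continuous fun y : ℝ => ∑' n, b n * Complex.exp (-ε + y * Complex.I) ^ n :=
    (differentiableOn_series hb).continuousOn.comp_continuous (by fun_prop) fun y => by
      rw [mem_ball_zero_iff, Complex.norm_exp]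
      simpa using hε
  induction P using Polynomial.induction_on' with
  | add P Q hP hQ =>
    simp only [eval_add, mul_add]
    have hI : ∀ R : ℂ[X], IntervalIntegrable (fun y : ℝ =>
        (∑' n, b n * Complex.exp (-ε + y * Complex.I) ^ n) *
          R.eval (Complex.exp (-(-ε + y * Complex.I)))) volume a (a + 2 * π) := fun R =>
      (hc.mul (R.continuous.comp (by fun_prop))).intervalIntegrable _ _
    rw [intervalIntegral.integral_add (hI P) (hI Q), hP, hQ, moment_add, mul_add]
  | monomial k c =>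
    simp only [eval_monomial, mul_left_comm _ c]
    rw [intervalIntegral.integral_const_mul, coeff_integral hb hε, moment_monomial]
    ring

/-- A point of the curve which replaces the circle. -/
def contourPoint (x y : ℝ) : ℂ :=
  Complex.exp (-((x : ℂ) + y * Complex.I))

theorem dist_contourPoint {x y ε : ℝ} (hε : 0 ≤ ε) (hx : -ε ≤ x) :
    dist (contourPoint x y) (contourPoint (max x 0) y) ≤ Real.exp ε - 1 := by
  rcases le_total 0 x with h | h
  · rw [max_eq_left h, dist_self]
    linarith [Real.one_le_exp hε]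
  · rw [max_eq_right h, dist_eq_norm, contourPoint, contourPoint]
    rw [show Complex.exp (-((x : ℂ) + y * Complex.I)) -
          Complex.exp (-(((0 : ℝ) : ℂ) + y * Complex.I))
        = (((Real.exp (-x) - 1 : ℝ)) : ℂ) * Complex.exp (-(y * Complex.I)) by
      push_cast
      rw [sub_mul, ← Complex.exp_add, zero_add]
      ring_nf]
    rw [norm_mul, Complex.norm_real, Complex.norm_exp,
      Real.norm_of_nonneg (by linarith [Real.one_le_exp (neg_nonneg.2 h)])]
    simp only [Complex.neg_re, Complex.mul_re, Complex.ofReal_re, Complex.I_re, mul_zero,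
      Complex.ofReal_im, Complex.I_im, sub_zero, neg_zero, Real.exp_zero, mul_one]
    linarith [Real.exp_le_exp.2 (show -x ≤ ε by linarith)]

theorem contourPoint_mem_cutDisc {η x y : ℝ} (hη : 0 < η) (hη' : η < π / 2) (hx : 0 ≤ x)
    (h : η ≤ y ∧ y ≤ 2 * π - η ∨ y = -η ∨ η ≤ x) :
    contourPoint x y ∈ cutDisc (max (Real.cos η) (Real.exp (-η))) := by
  have hn : ‖contourPoint x y‖ = Real.exp (-x) := by
    rw [contourPoint, Complex.norm_exp]; simp
  refine ⟨hn.trans_le (Real.exp_le_one_iff.2 (neg_nonpos.2 hx)), ?_⟩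
  have hre : (contourPoint x y).re = Real.exp (-x) * Real.cos y := by
    rw [contourPoint, Complex.exp_re]; simp
  have hcos : (η ≤ y ∧ y ≤ 2 * π - η) ∨ y = -η → Real.cos y ≤ Real.cos η := by
    rintro (⟨h1, h2⟩ | h1)
    · rcases le_total y π with h3 | h3
      · exact Real.cos_le_cos_of_nonneg_of_le_pi hη.le h3 h1
      · rw [← Real.cos_two_pi_sub y]
        exact Real.cos_le_cos_of_nonneg_of_le_pi hη.le (by linarith) (by linarith)
    · rw [h1, Real.cos_neg]
  rw [hre]
  have he := Real.exp_pos (-x)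
  have he1 : Real.exp (-x) ≤ 1 := Real.exp_le_one_iff.2 (neg_nonpos.2 hx)
  have hc0 : 0 ≤ Real.cos η := Real.cos_nonneg_of_mem_Icc ⟨by linarith, by linarith⟩
  rcases h with h | h | h
  · refine le_max_of_le_left ?_
    nlinarith [hcos (.inl h)]
  · refine le_max_of_le_left ?_
    nlinarith [hcos (.inr h)]
  · refine le_max_of_le_right ?_
    nlinarith [Real.cos_le_one y, Real.exp_le_exp.2 (neg_le_neg h)]

/-- **The moments are controlled by the values on a cut disc**, if the series continues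
analytically to a neighbourhood of `1`. -/
theorem exists_moment_bound {g : ℂ → ℂ} {δ : ℝ} (hδ : 0 < δ)
    (hg : DifferentiableOn ℂ g (Metric.ball 1 δ))
    (hfg : ∀ z ∈ Metric.ball (1 : ℂ) δ, ‖z‖ < 1 → g z = ∑' n, b n * z ^ n)
    (hb : ∀ r : ℝ, 0 ≤ r → r < 1 → Summable fun n => ‖b n‖ * r ^ n) :
    ∃ c < (1 : ℝ), ∀ U : Set ℂ, IsOpen U → cutDisc c ⊆ U → ∃ (S : Set ℂ) (C : ℝ), S ⊆ U ∧
      Bornology.IsBounded S ∧ 0 ≤ C ∧
        ∀ (P : ℂ[X]) (B : ℝ), (∀ w ∈ S, ‖P.eval w‖ ≤ B) → ‖moment b P‖ ≤ C * B := by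
  classical
  -- a square around the origin whose exponentials lie in the disc of continuation
  obtain ⟨η, hη, hη', hsq⟩ : ∃ η : ℝ, 0 < η ∧ η < π / 2 ∧ ∀ x y : ℝ, |x| ≤ η → |y| ≤ η →
      Complex.exp (x + y * Complex.I) ∈ Metric.ball (1 : ℂ) δ := by
    have h : ∀ᶠ z : ℂ in 𝓝 0, Complex.exp z ∈ Metric.ball (1 : ℂ) δ :=
      Complex.continuous_exp.continuousAt.eventually_mem
        (by rw [Complex.exp_zero]; exact Metric.ball_mem_nhds _ hδ)
    obtain ⟨ρ, hρ, hρ'⟩ := Metric.eventually_nhds_iff.1 h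
    refine ⟨min (ρ / 3) (π / 3), by positivity, by linarith [min_le_right (ρ / 3) (π / 3),
      Real.pi_pos], fun x y hx hy => hρ' ?_⟩
    rw [dist_zero_right]
    refine (norm_add_le _ _).trans_lt ?_
    rw [norm_mul, Complex.norm_real, Complex.norm_real, Complex.norm_I, mul_one, Real.norm_eq_abs,
      Real.norm_eq_abs]
    linarith [hx.trans (min_le_left _ _), hy.trans (min_le_left _ _)]
  have hπ := Real.pi_pos
  refine ⟨max (Real.cos η) (Real.exp (-η)), max_lt ?_ (Real.exp_lt_one_iff.2 (by linarith)),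
    fun U hU hcU => ?_⟩
  · rw [← Real.cos_zero]
    exact Real.cos_lt_cos_of_nonneg_of_le_pi le_rfl (by linarith) hη
  obtain ⟨κ, hκ, hκU⟩ := (isCompact_cutDisc _).exists_cthickening_subset_open hU hcU
  obtain ⟨ε, hε, hεη, hεκ⟩ : ∃ ε : ℝ, 0 < ε ∧ ε ≤ η ∧ Real.exp ε - 1 ≤ κ := by
    refine ⟨min η (Real.log (1 + κ)), lt_min hη (Real.log_pos (by linarith)), min_le_left _ _, ?_⟩
    have := Real.exp_le_exp.2 (min_le_right η (Real.log (1 + κ)))
    rw [Real.exp_log (by linarith)] at this
    linarith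
  set S := Metric.cthickening κ (cutDisc (max (Real.cos η) (Real.exp (-η))))
  have hmem : ∀ x y : ℝ, -ε ≤ x → (η ≤ y ∧ y ≤ 2 * π - η ∨ y = -η ∨ η ≤ x) →
      contourPoint x y ∈ S := fun x y hx h => by
    refine Metric.mem_cthickening_of_dist_le _ (contourPoint (max x 0) y) _ _
      (contourPoint_mem_cutDisc hη hη' (le_max_right _ _) ?_)
      ((dist_contourPoint hε.le hx).trans hεκ)
    rcases h with h | h | h
    · exact .inl h
    · exact .inr (.inl h)
    · exact .inr (.inr (h.trans (le_max_left _ _)))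
  -- the continued function
  set f : ℂ → ℂ := fun z => ∑' n, b n * z ^ n
  set F : ℂ → ℂ := fun z => if ‖z‖ < 1 then f z else g z
  set V := Metric.ball (0 : ℂ) 1 ∪ Metric.ball 1 δ
  have hV : IsOpen V := Metric.isOpen_ball.union Metric.isOpen_ball
  have hF : DifferentiableOn ℂ F V := by
    intro z hz
    rcases hz with hz | hz
    · refine (((differentiableOn_series hb).differentiableAt (Metric.isOpen_ball.mem_nhds hz)
        ).congr_of_eventuallyEq ?_).differentiableWithinAt
      filter_upwards [Metric.isOpen_ball.mem_nhds hz] with w hw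
      exact if_pos (mem_ball_zero_iff.1 hw)
    · refine ((hg.differentiableAt (Metric.isOpen_ball.mem_nhds hz)
        ).congr_of_eventuallyEq ?_).differentiableWithinAt
      filter_upwards [Metric.isOpen_ball.mem_nhds hz] with w hw
      by_cases h : ‖w‖ < 1
      · rw [show F w = f w from if_pos h]; exact (hfg w hw h).symm
      · exact if_neg h
  set Λ : Set ℂ := (fun p : ℝ × ℝ => (p.1 : ℂ) + p.2 * Complex.I) ''
    (Set.Icc (-ε) η ×ˢ Set.Icc (-η) η ∪ {-ε} ×ˢ Set.Icc η (2 * π - η))
  have hΛ : IsCompact Λ := ((isCompact_Icc.prod isCompact_Icc).union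
    (isCompact_singleton.prod isCompact_Icc)).image (by fun_prop)
  have hmemV : ∀ ζ ∈ Λ, Complex.exp ζ ∈ V := by
    rintro _ ⟨⟨x, y⟩, (⟨hx, hy⟩ | ⟨hx, hy⟩), rfl⟩
    · exact .inr (hsq x y (abs_le.2 ⟨by linarith [hx.1], hx.2⟩) (abs_le.2 hy))
    · refine .inl ?_
      simp only [Set.mem_singleton_iff] at hx
      rw [mem_ball_zero_iff, Complex.norm_exp]
      simp [hx, hε]
  obtain ⟨M, hM⟩ := hΛ.exists_bound_of_continuousOn
    (hF.continuousOn.comp Complex.continuous_exp.continuousOn hmemV)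
  refine ⟨S, |M| * (2 * (η + ε) + 2 * π) / (2 * π), hκU,
    (isCompact_cutDisc _).isBounded.cthickening, by positivity, fun P B hB => ?_⟩
  set Φ : ℂ → ℂ := fun ζ => F (Complex.exp ζ) * P.eval (Complex.exp (-ζ))
  have hbound : ∀ x y : ℝ, (x : ℂ) + y * Complex.I ∈ Λ → contourPoint x y ∈ S →
      ‖Φ (x + y * Complex.I)‖ ≤ |M| * B := fun x y h1 h2 => by
    rw [norm_mul]
    exact mul_le_mul ((hM _ h1).trans (le_abs_self M)) (hB _ h2) (norm_nonneg _) (abs_nonneg M)
  have hB0 : 0 ≤ B := (norm_nonneg _).trans (hB _ (hmem η 0 (by linarith) (.inr (.inr le_rfl))))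
  have hΦ : DifferentiableOn ℂ Φ (Complex.exp ⁻¹' V) :=
    (hF.comp Complex.differentiable_exp.differentiableOn (Set.mapsTo_preimage _ _)).mul
      ((P.differentiable.comp Complex.differentiable_exp).comp differentiable_neg).differentiableOn
  -- the rectangle
  have hrect := Complex.integral_boundary_rect_eq_zero_of_differentiableOn Φ
    (((-ε : ℝ) : ℂ) + ((-η : ℝ) : ℂ) * Complex.I) ((η : ℂ) + (η : ℂ) * Complex.I) (hΦ.mono ?_)
  swap
  · intro ζ hζ
    simp only [Complex.mem_reProdIm, Complex.add_re, Complex.mul_re, Complex.ofReal_re,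
      Complex.I_re, mul_zero, Complex.ofReal_im, Complex.I_im, mul_one, sub_zero, add_zero,
      Complex.add_im, Complex.mul_im, zero_add, Set.uIcc_of_le (show -ε ≤ η by linarith),
      Set.uIcc_of_le (show -η ≤ η by linarith)] at hζ
    exact hmemV _ ⟨(ζ.re, ζ.im), .inl ⟨hζ.1, hζ.2⟩, Complex.re_add_im ζ⟩
  simp only [Complex.add_re, Complex.mul_re, Complex.ofReal_re, Complex.I_re, mul_zero,
    Complex.ofReal_im, Complex.I_im, mul_one, sub_zero, add_zero, Complex.add_im, Complex.mul_im,
    zero_add, smul_eq_mul] at hrect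
  -- the integral over the whole segment
  have hL := moment_integral hb hε (-η) P
  have hseg : ∀ y : ℝ, Φ (((-ε : ℝ) : ℂ) + y * Complex.I) =
      f (Complex.exp (-ε + y * Complex.I)) *
        P.eval (Complex.exp (-(-ε + y * Complex.I))) := fun y => by
    simp only [Φ, F, Complex.ofReal_neg]
    rw [if_pos]
    rw [Complex.norm_exp]
    simp [hε]
  rw [← intervalIntegral.integral_congr fun y _ => hseg y] at hL
  have hint : ∀ u v : ℝ,
      IntervalIntegrable (fun y : ℝ => Φ (((-ε : ℝ) : ℂ) + y * Complex.I)) volume u v := fun u v =>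
    (hΦ.continuousOn.comp_continuous (by fun_prop) fun y => Or.inl (by
      rw [mem_ball_zero_iff, Complex.norm_exp]; simp [hε])).intervalIntegrable u v
  rw [← intervalIntegral.integral_add_adjacent_intervals (hint (-η) η) (hint η _)] at hL
  set I₁ := ∫ x : ℝ in (-ε)..η, Φ (x + ((-η : ℝ) : ℂ) * Complex.I)
  set I₂ := ∫ x : ℝ in (-ε)..η, Φ (x + (η : ℂ) * Complex.I)
  set I₃ := ∫ y : ℝ in (-η)..η, Φ ((η : ℂ) + y * Complex.I)
  set I₄ := ∫ y : ℝ in η..(-η + 2 * π), Φ (((-ε : ℝ) : ℂ) + y * Complex.I)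
  have hL' : 2 * π * moment b P = -Complex.I * (I₁ - I₂) + I₃ + I₄ := by
    rw [← hL]
    linear_combination Complex.I * hrect + (I₃ - ∫ y : ℝ in (-η)..η,
      Φ (((-ε : ℝ) : ℂ) + y * Complex.I)) * (-1 : ℂ) * Complex.I_mul_I
  have hmemΛ : ∀ x y : ℝ, (x ∈ Set.Icc (-ε) η ∧ y ∈ Set.Icc (-η) η) ∨
      (x = -ε ∧ y ∈ Set.Icc η (2 * π - η)) → (x : ℂ) + y * Complex.I ∈ Λ := fun x y h => by
    rcases h with ⟨h1, h2⟩ | ⟨h1, h2⟩
    · exact ⟨(x, y), .inl ⟨h1, h2⟩, rfl⟩
    · exact ⟨(x, y), .inr ⟨h1, h2⟩, rfl⟩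
  have hI₁ : ‖I₁‖ ≤ |M| * B * |η - -ε| :=
    intervalIntegral.norm_integral_le_of_norm_le_const fun x hx => by
      rw [Set.uIoc_of_le (by linarith)] at hx
      exact hbound x (-η) (hmemΛ _ _ (.inl ⟨⟨hx.1.le, hx.2⟩, le_rfl, by linarith⟩))
        (hmem _ _ hx.1.le (.inr (.inl rfl)))
  have hI₂ : ‖I₂‖ ≤ |M| * B * |η - -ε| :=
    intervalIntegral.norm_integral_le_of_norm_le_const fun x hx => by
      rw [Set.uIoc_of_le (by linarith)] at hx
      exact hbound x η (hmemΛ _ _ (.inl ⟨⟨hx.1.le, hx.2⟩, by linarith, le_rfl⟩))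
        (hmem _ _ hx.1.le (.inl ⟨le_rfl, by linarith⟩))
  have hI₃ : ‖I₃‖ ≤ |M| * B * |η - -η| :=
    intervalIntegral.norm_integral_le_of_norm_le_const fun y hy => by
      rw [Set.uIoc_of_le (by linarith)] at hy
      exact hbound η y (hmemΛ _ _ (.inl ⟨⟨by linarith, le_rfl⟩, hy.1.le, hy.2⟩))
        (hmem _ _ (by linarith) (.inr (.inr le_rfl)))
  have hI₄ : ‖I₄‖ ≤ |M| * B * |(-η + 2 * π) - η| :=
    intervalIntegral.norm_integral_le_of_norm_le_const fun y hy => by
      rw [Set.uIoc_of_le (by linarith)] at hy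
      exact hbound (-ε) y (hmemΛ _ _ (.inr ⟨rfl, hy.1.le, by linarith [hy.2]⟩))
        (hmem _ _ le_rfl (.inl ⟨hy.1.le, by linarith [hy.2]⟩))
  have h2π : ‖(2 * π : ℂ) * moment b P‖ ≤ |M| * B * (2 * (η + ε) + 2 * π) := by
    rw [hL']
    refine ((norm_add_le _ _).trans (add_le_add ((norm_add_le _ _).trans (add_le_add ?_ hI₃))
      hI₄)).trans (le_of_eq ?_) (b := |M| * B * |η - -ε| + |M| * B * |η - -ε| + |M| * B * |η - -η| +
        |M| * B * |(-η + 2 * π) - η|)
    · rw [norm_mul, norm_neg, Complex.norm_I, one_mul]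
      exact (norm_sub_le _ _).trans (add_le_add hI₁ hI₂)
    · rw [abs_of_nonneg (by linarith : (0 : ℝ) ≤ η - -ε),
        abs_of_nonneg (by linarith : (0 : ℝ) ≤ η - -η),
        abs_of_nonneg (by linarith : (0 : ℝ) ≤ (-η + 2 * π) - η)]
      ring
  rw [norm_mul, show (2 * π : ℂ) = ((2 * π : ℝ) : ℂ) by push_cast; rfl, Complex.norm_real,
    Real.norm_of_nonneg (by positivity)] at h2π
  rw [div_mul_eq_mul_div, le_div_iff₀ (by positivity)]
  linarith

end Fermat.Agent.PolyaCarlson
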