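import Fermat.Agent.PolyaCarlson.Contour
import Fermat.Agent.DworkRationality.Hankel

/-!
# Hankel determinants of a series with an analytic continuation
-/

set_option autoImplicit false

noncomputable section

open Polynomial Finset Filter FA.DworkRationality
open scoped Topology

namespace Fermat.Agent.PolyaCarlson

variable {b : ℕ → ℂ}

theorem moment_sum {ι : Type*} (s : Finset ι) (f : ι → ℂ[X]) :
    moment b (∑ i ∈ s, f i) = ∑ i ∈ s, moment b (f i) :=
  map_sum (AddMonoidHom.mk' (moment b) moment_add) f s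

theorem moment_X_pow_mul (Q : ℂ[X]) (i m : ℕ) (hQ : Q.natDegree < m) :
    moment b (X ^ i * Q) = ∑ j ∈ range m, Q.coeff j * b (i + j) := by
  conv_lhs => rw [Q.as_sum_range_C_mul_X_pow' hQ, Finset.mul_sum]
  rw [moment_sum]
  refine Finset.sum_congr rfl fun j _ => ?_
  rw [mul_left_comm, ← pow_add, C_mul_X_pow_eq_monomial, moment_monomial]

theorem moment_mul (P Q : ℂ[X]) {m : ℕ} (hP : P.natDegree < m) (hQ : Q.natDegree < m) :
    moment b (P * Q) = ∑ i ∈ range m, ∑ j ∈ range m, P.coeff i * (Q.coeff j * b (i + j)) := by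
  conv_lhs => rw [P.as_sum_range_C_mul_X_pow' hP, Finset.sum_mul]
  rw [moment_sum]
  refine Finset.sum_congr rfl fun i _ => ?_
  rw [← smul_eq_C_mul, smul_mul_assoc, ← Finset.mul_sum, ← moment_X_pow_mul Q i m hQ]
  simp only [moment]
  rw [Polynomial.sum_smul_index _ _ _ fun _ => zero_mul _]
  simp only [mul_assoc, Polynomial.sum_def, Finset.mul_sum]

/-- A change of basis by monic polynomials of increasing degree preserves the determinant. -/
theorem det_moment_matrix (p : ℕ → ℂ[X]) (hp : ∀ k, (p k).Monic) (hd : ∀ k, (p k).natDegree = k)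
    (m : ℕ) : (Matrix.of fun i j : Fin m => moment b (p i * p j)).det = (hankel b m).det := by
  set T : Matrix (Fin m) (Fin m) ℂ := Matrix.of fun i j : Fin m => (p i).coeff j
  have hT : T.det = 1 := by
    rw [Matrix.det_of_isLowerTriangular T fun i j hij => ?_]
    · exact Finset.prod_eq_one fun i _ => by
        show (p i).coeff i = 1
        rw [← (hp i).coeff_natDegree, hd]
    · exact coeff_eq_zero_of_natDegree_lt (by rw [hd]; exact hij)
  have he : (Matrix.of fun i j : Fin m => moment b (p i * p j)) = T * hankel b m * T.transpose := by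
    ext i j
    rw [Matrix.of_apply, moment_mul _ _ (by rw [hd]; exact i.isLt) (by rw [hd]; exact j.isLt),
      Matrix.mul_apply]
    simp only [Finset.sum_range]
    rw [Finset.sum_comm]
    refine Finset.sum_congr rfl fun k _ => ?_
    rw [Matrix.mul_apply, Finset.sum_mul]
    refine Finset.sum_congr rfl fun l _ => ?_
    simp only [T, hankel, Matrix.of_apply, Matrix.transpose_apply]
    ring
  rw [he, Matrix.det_mul, Matrix.det_mul, Matrix.det_transpose, hT, one_mul, mul_one]

theorem tendsto_hankel_of_continuation_one {g : ℂ → ℂ} {δ : ℝ} (hδ : 0 < δ)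
    (hg : DifferentiableOn ℂ g (Metric.ball 1 δ))
    (hfg : ∀ z ∈ Metric.ball (1 : ℂ) δ, ‖z‖ < 1 → g z = ∑' n, b n * z ^ n)
    (hb : ∀ r : ℝ, 0 ≤ r → r < 1 → Summable fun n => ‖b n‖ * r ^ n) :
    Tendsto (fun m => ‖(hankel b m).det‖) atTop (𝓝 0) := by
  obtain ⟨c, hc, hbd⟩ := exists_moment_bound hδ hg hfg hb
  obtain ⟨P, hP, hPd, hPc⟩ := exists_small_monic hc
  obtain ⟨ρ, hρ, hρ1, hρc⟩ : ∃ ρ : ℝ, 0 < ρ ∧ ρ < 1 ∧ ∀ w ∈ cutDisc c, ‖P.eval w‖ < ρ := by
    rcases (cutDisc c).eq_empty_or_nonempty with h | h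
    · exact ⟨1 / 2, by norm_num, by norm_num, fun w hw => by simp [h] at hw⟩
    obtain ⟨w₀, hw₀, hmax⟩ := (isCompact_cutDisc c).exists_isMaxOn h
      (continuous_norm.comp P.continuous).continuousOn
    obtain ⟨ρ, h1, h2⟩ := exists_between (hPc w₀ hw₀)
    exact ⟨ρ, (norm_nonneg _).trans_lt h1, h2, fun w hw => (hmax hw).trans_lt h1⟩
  obtain ⟨S, C, hSU, hSb, hC, hCS⟩ := hbd {w | ‖P.eval w‖ < ρ}
    (isOpen_lt (continuous_norm.comp P.continuous) continuous_const) hρc
  obtain ⟨R, hR1, hR⟩ : ∃ R : ℝ, 1 ≤ R ∧ ∀ w ∈ S, ‖w‖ ≤ R := by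
    obtain ⟨R, hR⟩ := hSb.subset_closedBall 0
    exact ⟨max R 1, le_max_right _ _, fun w hw => le_max_of_le_left (by simpa using hR hw)⟩
  set d := P.natDegree
  obtain ⟨s, hs0, hs1, hs⟩ : ∃ s : ℝ, 0 < s ∧ s < 1 ∧ ρ ≤ s ^ d := by
    have h : ∀ᶠ s : ℝ in 𝓝 1, ρ ≤ s ^ d :=
      ((continuous_pow d).tendsto 1).eventually (le_mem_nhds (by simpa using hρ1))
    obtain ⟨s, ⟨h1, h2⟩, h3⟩ := ((h.filter_mono nhdsWithin_le_nhds).and
      (self_mem_nhdsWithin (a := (1 : ℝ)) (s := Set.Iio 1)) |>.and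
        ((eventually_gt_nhds one_pos).filter_mono nhdsWithin_le_nhds)).exists
    exact ⟨s, h3, h2, h1⟩
  set p : ℕ → ℂ[X] := fun k => P ^ (k / d) * X ^ (k % d)
  have hp : ∀ k, (p k).Monic := fun k => (hP.pow _).mul (monic_X_pow _)
  have hpd : ∀ k, (p k).natDegree = k := fun k => by
    rw [(hP.pow _).natDegree_mul (monic_X_pow _), hP.natDegree_pow, natDegree_X_pow,
      Nat.div_add_mod' k d]
  set M := R ^ d / s ^ d
  have hpb : ∀ k, ∀ w ∈ S, ‖(p k).eval w‖ ≤ M * s ^ k := fun k w hw => by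
    have h1 : ‖P.eval w‖ ≤ s ^ d := (hSU hw : ‖P.eval w‖ < ρ).le.trans hs
    simp only [p, eval_mul, eval_pow, eval_X, norm_mul, norm_pow]
    calc ‖P.eval w‖ ^ (k / d) * ‖w‖ ^ (k % d)
        ≤ (s ^ d) ^ (k / d) * R ^ d := by
          refine mul_le_mul (pow_le_pow_left₀ (norm_nonneg _) h1 _) ?_ (by positivity)
            (by positivity)
          exact (pow_le_pow_left₀ (norm_nonneg _) (hR w hw) _).trans
            (pow_le_pow_right₀ hR1 (Nat.mod_lt k hPd).le)
      _ = M * s ^ (d * (k / d) + d) := by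
          rw [pow_add, ← pow_mul]
          simp only [M]
          field_simp
      _ ≤ M * s ^ k := by
          refine mul_le_mul_of_nonneg_left (pow_le_pow_of_le_one hs0.le hs1.le ?_) (by positivity)
          have := Nat.div_add_mod k d
          have := Nat.mod_lt k hPd
          omega
  have hent : ∀ i j, ‖moment b (p i * p j)‖ ≤ C * M ^ 2 * s ^ i * s ^ j := fun i j => by
    refine (hCS _ (M * s ^ i * (M * s ^ j)) fun w hw => ?_).trans (le_of_eq (by ring))
    rw [eval_mul, norm_mul]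
    exact mul_le_mul (hpb i w hw) (hpb j w hw) (norm_nonneg _) (by positivity)
  set K := C * M ^ 2
  have hdet : ∀ m, ‖(hankel b m).det‖ ≤ (m * K * s ^ (m - 1)) ^ m := fun m => by
    rw [← det_moment_matrix p hp hpd m, Matrix.det_apply]
    refine (norm_sum_le _ _).trans ?_
    have hterm : ∀ σ : Equiv.Perm (Fin m), ‖Equiv.Perm.sign σ •
        ∏ i, (Matrix.of fun i j : Fin m => moment b (p i * p j)) (σ i) i‖ ≤
          (K * s ^ (m - 1)) ^ m := fun σ => by
      rw [show ‖Equiv.Perm.sign σ •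
          ∏ i, (Matrix.of fun i j : Fin m => moment b (p i * p j)) (σ i) i‖ =
          ∏ i, ‖moment b (p (σ i : ℕ) * p i)‖ by
        rcases Int.units_eq_one_or (Equiv.Perm.sign σ) with h | h <;> simp [h, norm_prod]]
      refine (Finset.prod_le_prod (fun i _ => norm_nonneg _) fun i _ => hent _ _).trans
        (le_of_eq ?_)
      rw [Finset.prod_mul_distrib, Finset.prod_mul_distrib, Finset.prod_const, card_univ,
        Fintype.card_fin, Equiv.prod_comp σ (fun i : Fin m => s ^ (i : ℕ)),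
        Finset.prod_pow_eq_pow_sum, Fin.sum_univ_eq_sum_range (fun i => i), mul_assoc, ← pow_add,
        show (K * s ^ (m - 1)) ^ m = K ^ m * s ^ ((m - 1) * m) by rw [mul_pow, ← pow_mul]]
      have := Finset.sum_range_id_mul_two m
      rw [mul_comm (m - 1) m, ← this, mul_two]
    refine (Finset.sum_le_card_nsmul _ _ _ fun σ _ => hterm σ).trans ?_
    rw [card_univ, Fintype.card_perm, Fintype.card_fin, nsmul_eq_mul, mul_assoc (m : ℝ) K,
      mul_pow (m : ℝ)]
    refine mul_le_mul_of_nonneg_right ?_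
      (pow_nonneg (mul_nonneg (mul_nonneg hC (sq_nonneg M)) (pow_nonneg hs0.le _)) _)
    rw [← Nat.cast_pow]
    exact_mod_cast Nat.factorial_le_pow m
  have hlim : Tendsto (fun m : ℕ => (m : ℝ) * K * s ^ (m - 1)) atTop (𝓝 0) := by
    have h := (tendsto_self_mul_const_pow_of_lt_one hs0.le hs1).const_mul (K / s)
    rw [mul_zero] at h
    refine h.congr' ?_
    filter_upwards [eventually_ge_atTop 1] with m hm
    obtain ⟨k, rfl⟩ := Nat.exists_eq_add_of_le hm
    rw [Nat.add_sub_cancel_left, pow_add, pow_one]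
    field_simp
  refine squeeze_zero' (Eventually.of_forall fun m => norm_nonneg _) (Eventually.of_forall hdet) ?_
  refine squeeze_zero' (g := fun m : ℕ => (m : ℝ) * K * s ^ (m - 1))
    (Eventually.of_forall fun m => by positivity) ?_ hlim
  filter_upwards [hlim.eventually (gt_mem_nhds one_pos), eventually_ge_atTop 1] with m hm hm1
  exact pow_le_of_le_one (by positivity) hm.le (by omega)

/-- **The Hankel determinants tend to zero** if the series continues across a point of the unit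
circle. -/
theorem tendsto_hankel_of_continuation {ζ : ℂ} (hζ : ‖ζ‖ = 1) {g : ℂ → ℂ} {δ : ℝ} (hδ : 0 < δ)
    (hg : DifferentiableOn ℂ g (Metric.ball ζ δ))
    (hfg : ∀ z ∈ Metric.ball ζ δ, ‖z‖ < 1 → g z = ∑' n, b n * z ^ n)
    (hb : ∀ r : ℝ, 0 ≤ r → r < 1 → Summable fun n => ‖b n‖ * r ^ n) :
    Tendsto (fun m => ‖(hankel b m).det‖) atTop (𝓝 0) := by
  have hmem : ∀ z ∈ Metric.ball (1 : ℂ) δ, ζ * z ∈ Metric.ball ζ δ := fun z hz => by
    rw [mem_ball_iff_norm, show ζ * z - ζ = ζ * (z - 1) by ring, norm_mul, hζ, one_mul]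
    exact mem_ball_iff_norm.1 hz
  have h := tendsto_hankel_of_continuation_one (b := fun n => b n * ζ ^ n) hδ
    (hg.comp (differentiableOn_id.const_mul ζ) hmem)
    (fun z hz hz1 => by
      rw [Function.comp_apply, hfg _ (hmem z hz) (by rwa [norm_mul, hζ, one_mul])]
      exact tsum_congr fun n => by rw [mul_pow]; ring)
    (fun r hr hr1 => by simpa [hζ] using hb r hr hr1)
  refine h.congr fun m => ?_
  set Dg : Matrix (Fin m) (Fin m) ℂ := Matrix.diagonal fun i : Fin m => ζ ^ (i : ℕ)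
  have e : hankel (fun n => b n * ζ ^ n) m = Dg * hankel b m * Dg := by
    ext i j
    simp only [Dg, Matrix.mul_diagonal, Matrix.diagonal_mul, hankel, Matrix.of_apply, pow_add]
    ring
  rw [e, Matrix.det_mul, Matrix.det_mul, Matrix.det_diagonal, norm_mul, norm_mul, norm_prod]
  simp [hζ]

end Fermat.Agent.PolyaCarlson
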