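import Fermat.Agent.PolyaCarlson.Determinants
import Mathlib.NumberTheory.NumberField.InfinitePlace.Embeddings
import Mathlib.RingTheory.EuclideanDomain
import Mathlib.Algebra.Polynomial.Reverse
import Mathlib.FieldTheory.IntermediateField.Adjoin.Basic
import Mathlib.RingTheory.PowerSeries.Trunc

/-!
# The theorem of Pólya and Carlson
-/

set_option autoImplicit false

noncomputable section

open Polynomial Finset Filter FA.DworkRationality
open scoped Topology

namespace Fermat.Agent.PolyaCarlson

variable {a : ℕ → ℤ}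
  (ha : ∀ r : ℝ, 0 ≤ r → r < 1 → Summable fun n => |(a n : ℝ)| * r ^ n)

include ha in
theorem summable_cast : ∀ r : ℝ, 0 ≤ r → r < 1 → Summable fun n => ‖(a n : ℂ)‖ * r ^ n := by
  simpa [Complex.norm_intCast] using ha

include ha in
/-- Multiplying the series by a polynomial. -/
theorem hasSum_mul_polynomial {z : ℂ} (hz : ‖z‖ < 1) (Q : ℚ[X]) :
    HasSum (fun n => ((PowerSeries.coeff n (PowerSeries.mk (fun k => (a k : ℚ)) *
        (Q : PowerSeries ℚ)) : ℚ) : ℂ) * z ^ n)
      ((∑' n, (a n : ℂ) * z ^ n) * aeval z Q) := by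
  induction Q using Polynomial.induction_on' with
  | add P Q hP hQ =>
    simpa only [Polynomial.coe_add, mul_add, map_add, Rat.cast_add, add_mul] using hP.add hQ
  | monomial k c =>
    have h := (hasSum_series (summable_cast ha) hz).mul_right ((c : ℂ) * z ^ k)
    refine (Function.Injective.hasSum_iff (add_left_injective k) fun n hn => ?_).1 ?_
    · rw [Polynomial.coe_monomial, PowerSeries.coeff_mul]
      refine mul_eq_zero_of_left ?_ _
      rw [Rat.cast_eq_zero]
      refine Finset.sum_eq_zero fun ij hij => ?_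
      rw [Finset.mem_antidiagonal] at hij
      rw [PowerSeries.coeff_monomial, if_neg, mul_zero]
      exact fun h => hn ⟨ij.1, by simp only; omega⟩
    · rw [aeval_monomial, eq_ratCast (algebraMap ℚ ℂ)]
      refine h.congr_fun fun n => ?_
      simp only [Function.comp_apply]
      rw [PowerSeries.coeff_mul, Finset.sum_eq_single (n, k), PowerSeries.coeff_mk, coeff_coe,
        coeff_monomial, if_pos rfl]
      · push_cast; ring
      · intro ij hij hne
        rw [Finset.mem_antidiagonal] at hij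
        rw [coeff_coe, coeff_monomial, if_neg, mul_zero]
        exact fun h => hne (Prod.ext (by simp only; omega) h.symm)
      · intro h
        exact absurd (Finset.mem_antidiagonal.2 (rfl : (n, k).1 + (n, k).2 = n + k)) h

include ha in
/-- **Rationality** of a continuable series. -/
theorem exists_rational {ζ : ℂ} (hζ : ‖ζ‖ = 1) {g : ℂ → ℂ} {δ : ℝ} (hδ : 0 < δ)
    (hg : DifferentiableOn ℂ g (Metric.ball ζ δ))
    (hfg : ∀ z ∈ Metric.ball ζ δ, ‖z‖ < 1 → g z = ∑' n, (a n : ℂ) * z ^ n) :
    ∃ P Q : ℤ[X], Q.coeff 0 = 1 ∧ PowerSeries.mk a * (Q : PowerSeries ℤ) = (P : PowerSeries ℤ) := by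
  classical
  by_cases h0 : ∀ n, a n = 0
  · exact ⟨0, 1, coeff_one_zero, by ext n; simp [h0]⟩
  push Not at h0
  set v := Nat.find h0
  set b : ℕ → ℤ := fun n => a (n + v)
  have hb0 : b 0 ≠ 0 := by simpa [b] using Nat.find_spec h0
  have hbs : ∀ r : ℝ, 0 ≤ r → r < 1 → Summable fun n => |(b n : ℝ)| * r ^ n := fun r hr hr1 => by
    rcases hr.eq_or_lt with h | h
    · subst h
      exact summable_of_ne_finset_zero (s := {0}) fun n hn => by
        rw [zero_pow (by simpa using hn), mul_zero]
    refine (((summable_nat_add_iff v).2 (ha r hr hr1)).div_const (r ^ v)).congr fun n => ?_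
    simp only [b, pow_add]
    field_simp
  set δ' := min δ 1
  have hne : ∀ z ∈ Metric.ball ζ δ', z ≠ 0 := fun z hz h => by
    rw [h, Metric.mem_ball, dist_zero_left, hζ] at hz
    exact absurd (hz.trans_le (min_le_right δ 1)) (lt_irrefl 1)
  have hsub : Metric.ball ζ δ' ⊆ Metric.ball ζ δ := Metric.ball_subset_ball (min_le_left δ 1)
  have hdet := tendsto_hankel_of_continuation (b := fun n => (b n : ℂ)) hζ
    (lt_min hδ one_pos : 0 < δ') (g := fun z => g z / z ^ v)
    (DifferentiableOn.div (hg.mono hsub) (by fun_prop) fun z hz => pow_ne_zero _ (hne z hz))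
    (fun z hz hz1 => by
      rw [hfg z (hsub hz) hz1, div_eq_iff (pow_ne_zero _ (hne z hz)), ← tsum_mul_right,
        ← Summable.sum_add_tsum_nat_add v (hasSum_series (summable_cast ha) hz1).summable,
        show ∑ i ∈ range v, (a i : ℂ) * z ^ i = 0 from Finset.sum_eq_zero fun n hn => by
          rw [not_not.1 (Nat.find_min h0 (Finset.mem_range.1 hn)), Int.cast_zero, zero_mul],
        zero_add]
      exact tsum_congr fun n => by simp only [b, pow_add]; ring)
    (summable_cast hbs)
  obtain ⟨N₀, hN₀⟩ := eventually_atTop.1 (hdet.eventually (gt_mem_nhds one_pos))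
  have hvan : ∀ m, N₀ ≤ m → (hankel (fun n => (b n : ℚ)) m).det = 0 := fun m hm => by
    set D := (Matrix.of fun i j : Fin m => b (i + j)).det
    have h1 : (hankel (fun n => (b n : ℚ)) m).det = (D : ℚ) := by rw [Int.cast_det]; rfl
    have h2 : (hankel (fun n => (b n : ℂ)) m).det = (D : ℂ) := by rw [Int.cast_det]; rfl
    have h3 := hN₀ m hm
    rw [h2, Complex.norm_intCast] at h3
    have h4 : |D| < 1 := by exact_mod_cast h3
    rw [h1, Int.abs_lt_one_iff.1 h4, Int.cast_zero]
  obtain ⟨M, c, hcM, hrec⟩ := exists_recurrence (fun n => (b n : ℚ))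
    (Int.cast_ne_zero.2 hb0) hvan
  set Q : ℚ[X] := ∑ j ∈ range (M + 1), Polynomial.C (c j) * X ^ (M - j)
  have hQc : ∀ l ≤ M, Q.coeff l = c (M - l) := fun l hl => by
    simp only [Q, finsetSum_coeff, coeff_C_mul_X_pow]
    rw [Finset.sum_eq_single (M - l)]
    · rw [if_pos (by omega)]
    · intro j hj hne
      simp only [mem_range] at hj
      rw [if_neg (by omega)]
    · intro h; simp only [mem_range] at h; omega
  have hQ0 : Q ≠ 0 := fun h => by
    have := hQc 0 (Nat.zero_le _)
    rw [h, coeff_zero, Nat.sub_zero, hcM] at this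
    exact zero_ne_one this
  have hprod : PowerSeries.map (Int.castRingHom ℚ) (PowerSeries.mk b) * (Q : PowerSeries ℚ) =
      ((PowerSeries.trunc M (PowerSeries.map (Int.castRingHom ℚ) (PowerSeries.mk b) *
        (Q : PowerSeries ℚ)) : ℚ[X]) : PowerSeries ℚ) := by
    ext n
    rw [coeff_coe, PowerSeries.coeff_trunc]
    split_ifs with hn
    · rfl
    obtain ⟨i, rfl⟩ := Nat.exists_eq_add_of_le (not_lt.1 hn)
    rw [PowerSeries.coeff_mul, Finset.Nat.sum_antidiagonal_eq_sum_range_succ_mk,
      Finset.range_eq_Ico, ← Finset.sum_Ico_consecutive _ (Nat.zero_le i) (by omega),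
      Finset.sum_eq_zero fun k hk => ?_, zero_add, Finset.sum_Ico_eq_sum_range,
      show (M + i).succ - i = M + 1 by omega]
    · refine Eq.trans (Finset.sum_congr rfl fun j hj => ?_) (hrec i)
      simp only [mem_range] at hj
      rw [PowerSeries.coeff_map, PowerSeries.coeff_mk, coeff_coe, hQc _ (by omega),
        show M - (M + i - (i + j)) = j by omega, eq_intCast, mul_comm]
    · simp only [mem_Ico] at hk
      rw [coeff_coe, coeff_eq_zero_of_natDegree_lt ((natDegree_sum_le_of_forall_le _ _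
        fun j _ => (natDegree_C_mul_X_pow_le _ _).trans (Nat.sub_le M j)).trans_lt (by omega)),
        mul_zero]
  obtain ⟨P', Q', hQ', hPQ⟩ := exists_intPolynomial hQ0 hprod
  refine ⟨X ^ v * P', Q', hQ', ?_⟩
  have he : PowerSeries.mk a = PowerSeries.X ^ v * PowerSeries.mk b := by
    ext n
    rw [PowerSeries.coeff_X_pow_mul', PowerSeries.coeff_mk]
    split_ifs with hn
    · rw [PowerSeries.coeff_mk]
      simp only [b, Nat.sub_add_cancel hn]
    · exact not_not.1 (Nat.find_min h0 (not_le.1 hn))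
  rw [he, Polynomial.coe_mul, Polynomial.coe_pow, Polynomial.coe_X, mul_assoc, hPQ]

include ha in
/-- The poles are roots of unity. -/
theorem exists_cyclotomic_denominator {P Q : ℤ[X]} (hQ : Q.coeff 0 = 1)
    (h : PowerSeries.mk a * (Q : PowerSeries ℤ) = (P : PowerSeries ℤ)) :
    ∃ m k : ℕ, 0 < m ∧ ∃ P' : ℤ[X],
      PowerSeries.mk a * (((1 - X ^ m) ^ k : ℤ[X]) : PowerSeries ℤ) = (P' : PowerSeries ℤ) := by
  classical
  set Z := PowerSeries.mk fun k => (a k : ℚ)
  have hZ : PowerSeries.map (Int.castRingHom ℚ) (PowerSeries.mk a) = Z := by ext n; simp [Z]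
  set Pq := P.map (Int.castRingHom ℚ)
  set Qq := Q.map (Int.castRingHom ℚ)
  have hQq : Qq.coeff 0 = 1 := by simp [Qq, hQ]
  have hQq0 : Qq ≠ 0 := fun e => by simp [e] at hQq
  have hq : Z * (Qq : PowerSeries ℚ) = (Pq : PowerSeries ℚ) := by
    rw [← hZ, polynomial_map_coe, polynomial_map_coe, ← map_mul, h]
  obtain ⟨G, P₁, Q₁, hcop, hP₁, hQ₁⟩ : ∃ G P₁ Q₁ : ℚ[X], IsCoprime P₁ Q₁ ∧ Pq = G * P₁ ∧
      Qq = G * Q₁ := by
    let : GCDMonoid ℚ[X] := EuclideanDomain.gcdMonoid ℚ[X]
    exact ⟨GCDMonoid.gcd Pq Qq, Pq / GCDMonoid.gcd Pq Qq, Qq / GCDMonoid.gcd Pq Qq,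
      isCoprime_div_gcd_div_gcd hQq0,
      (EuclideanDomain.mul_div_cancel' (gcd_ne_zero_of_right hQq0) (gcd_dvd_left Pq Qq)).symm,
      (EuclideanDomain.mul_div_cancel' (gcd_ne_zero_of_right hQq0) (gcd_dvd_right Pq Qq)).symm⟩
  have hG : G ≠ 0 := fun e => hQq0 (by rw [hQ₁, e, zero_mul])
  have h1 : Z * (Q₁ : PowerSeries ℚ) = (P₁ : PowerSeries ℚ) := by
    refine mul_left_cancel₀ (a := (G : PowerSeries ℚ)) (by simpa using hG) ?_
    rw [hP₁, hQ₁, Polynomial.coe_mul, Polynomial.coe_mul] at hq
    linear_combination hq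
  have hQ₁0 : Q₁.coeff 0 ≠ 0 := fun e => by
    rw [hQ₁, mul_coeff_zero, e, mul_zero] at hQq
    exact zero_ne_one hQq
  -- no root in the disc
  have houtside : ∀ z : ℂ, aeval z Q₁ = 0 → 1 ≤ ‖z‖ := by
    intro z hz
    by_contra hlt
    rw [not_le] at hlt
    have h2 := hasSum_mul_polynomial ha hlt Q₁
    rw [h1, hz, mul_zero] at h2
    have h3 : HasSum (fun n => ((PowerSeries.coeff n (P₁ : PowerSeries ℚ) : ℚ) : ℂ) * z ^ n)
        (aeval z P₁) := by
      rw [aeval_eq_sum_range]
      simp only [coeff_coe, Algebra.smul_def, eq_ratCast]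
      exact hasSum_sum_of_ne_finset_zero fun n hn => by
        rw [coeff_eq_zero_of_natDegree_lt (by simpa using hn)]; simp
    obtain ⟨u, w, huw⟩ := hcop
    have := congrArg (aeval z) huw
    rw [map_add, map_mul, map_mul, hz, h3.unique h2, mul_zero, mul_zero, add_zero,
      map_one] at this
    exact zero_ne_one this
  -- every root is a root of unity
  have hroot : ∀ z : ℂ, aeval z Q₁ = 0 → ∃ m, 0 < m ∧ z ^ m = 1 := by
    intro z hz
    have hz0 : z ≠ 0 := fun e => hQ₁0 (by
      rw [e, ← coeff_zero_eq_aeval_zero'] at hz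
      exact (map_eq_zero _).1 hz)
    have hzQ : aeval z Q = 0 := by
      rw [← aeval_map_algebraMap ℚ z Q, algebraMap_int_eq,
        show Q.map (Int.castRingHom ℚ) = G * Q₁ from hQ₁, map_mul, hz, mul_zero]
    set w := z⁻¹
    have hw0 : w ≠ 0 := inv_ne_zero hz0
    have hwint : IsIntegral ℤ w := by
      refine ⟨Q.reverse, ?_, ?_⟩
      · show Q.reverse.leadingCoeff = 1
        rw [reverse_leadingCoeff, trailingCoeff, natTrailingDegree_eq_zero_of_constantCoeff_ne_zero]
        · exact hQ
        · rw [constantCoeff_apply, hQ]; exact one_ne_zero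
      · let : Invertible z := invertibleOfNonzero hz0
        show eval₂ (algebraMap ℤ ℂ) w Q.reverse = 0
        rw [show w = ⅟z from (invOf_eq_inv z).symm, eval₂_reverse_eq_zero_iff]
        exact hzQ
    have hwq : IsIntegral ℚ w := hwint.tower_top
    have : FiniteDimensional ℚ (IntermediateField.adjoin ℚ {w}) :=
      IntermediateField.adjoin.finiteDimensional hwq
    have : NumberField (IntermediateField.adjoin ℚ {w}) := NumberField.mk
    set K := IntermediateField.adjoin ℚ {w}
    set y : K := ⟨w, IntermediateField.mem_adjoin_simple_self ℚ w⟩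
    have hy : y ≠ 0 := fun e => hw0 (congrArg Subtype.val e)
    have hyint : IsIntegral ℤ y :=
      (isIntegral_algebraMap_iff (algebraMap K ℂ).injective).1 hwint
    obtain ⟨m, hm, hym⟩ := NumberField.Embeddings.pow_eq_one_of_norm_le_one K ℂ hy hyint
      fun φ => by
        have h2 : aeval (φ y)⁻¹ Q₁ = 0 := by
          have h3 : aeval y⁻¹ Q₁ = 0 := by
            refine (algebraMap K ℂ).injective ?_
            rw [map_zero, ← aeval_algebraMap_apply, map_inv₀]
            show aeval w⁻¹ Q₁ = 0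
            rw [inv_inv]; exact hz
          have := congrArg φ.toRatAlgHom h3
          rwa [map_zero, ← aeval_algHom_apply, map_inv₀] at this
        have := houtside _ h2
        rw [norm_inv] at this
        exact (one_le_inv₀ (norm_pos_iff.2 ((map_ne_zero φ).2 hy))).1 this
    refine ⟨m, hm, ?_⟩
    have h4 : w ^ m = 1 := congrArg Subtype.val hym
    rwa [inv_pow, inv_eq_one] at h4
  set s := (Q₁.map (algebraMap ℚ ℂ)).roots
  have hmem : ∀ z ∈ s, aeval z Q₁ = 0 := fun z hz => by
    rw [aeval_def, ← eval_map]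
    exact (mem_roots'.1 hz).2
  choose! ord hord hpow using hroot
  set m := ∏ z ∈ s.toFinset, ord z
  have hm : 0 < m := Finset.prod_pos fun z hz => hord z (hmem z (Multiset.mem_toFinset.1 hz))
  have hdvd : Q₁ ∣ (1 - X ^ m) ^ (Multiset.card s) := by
    have hsp : (Q₁.map (algebraMap ℚ ℂ)).Splits := IsAlgClosed.splits _
    rw [← map_dvd_map' (algebraMap ℚ ℂ), Polynomial.map_pow, Polynomial.map_sub, Polynomial.map_one,
      Polynomial.map_pow, Polynomial.map_X, hsp.eq_prod_roots,
      IsUnit.mul_left_dvd (isUnit_C.2 (isUnit_iff_ne_zero.2 (leadingCoeff_ne_zero.2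
        ((Polynomial.map_ne_zero_iff (algebraMap ℚ ℂ).injective).2
          fun e => hQ₁0 (by simp [e])))))]
    calc (s.map fun z => X - Polynomial.C z).prod ∣
          (s.map fun _ => (1 - X ^ m : ℂ[X])).prod := by
          refine Multiset.prod_dvd_prod_of_dvd _ _ fun z hz => ?_
          rw [dvd_iff_isRoot, IsRoot, eval_sub, eval_one, eval_pow, eval_X, sub_eq_zero]
          obtain ⟨e, he⟩ := Finset.dvd_prod_of_mem ord (Multiset.mem_toFinset.2 hz)
          rw [show m = ord z * e from he, pow_mul, hpow z (hmem z hz), one_pow]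
      _ = (1 - X ^ m) ^ Multiset.card s := by rw [Multiset.map_const', Multiset.prod_replicate]
  obtain ⟨R, hR⟩ := hdvd
  refine ⟨m, Multiset.card s, hm, PowerSeries.trunc ((P₁ * R).natDegree + 1)
    (PowerSeries.mk a * (((1 - X ^ m) ^ Multiset.card s : ℤ[X]) : PowerSeries ℤ)), ?_⟩
  ext n
  rw [coeff_coe, PowerSeries.coeff_trunc]
  split_ifs with hn
  · rfl
  have h2 : PowerSeries.map (Int.castRingHom ℚ)
      (PowerSeries.mk a * (((1 - X ^ m) ^ Multiset.card s : ℤ[X]) : PowerSeries ℤ)) =
        ((P₁ * R : ℚ[X]) : PowerSeries ℚ) := by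
    rw [map_mul, hZ, ← polynomial_map_coe, Polynomial.map_pow, Polynomial.map_sub,
      Polynomial.map_one, Polynomial.map_pow, Polynomial.map_X, hR, Polynomial.coe_mul,
      Polynomial.coe_mul, ← h1]
    ring
  have h3 := congrArg (PowerSeries.coeff n) h2
  rw [PowerSeries.coeff_map, coeff_coe, coeff_eq_zero_of_natDegree_lt (by omega)] at h3
  exact Int.cast_eq_zero.1 h3

/-- A sequence of finitely many values with a linear recurrence is eventually periodic. -/
theorem eventually_periodic (hfin : (Set.range a).Finite) {m k : ℕ} (hm : 0 < m) {P : ℤ[X]}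
    (h : PowerSeries.mk a * (((1 - X ^ m) ^ k : ℤ[X]) : PowerSeries ℤ) = (P : PowerSeries ℤ)) :
    ∃ N T : ℕ, 0 < T ∧ ∀ n, N ≤ n → a (n + T) = a n := by
  classical
  set Q : ℤ[X] := (1 - X ^ m) ^ k
  set d := Q.natDegree
  have hQ0 : Q.coeff 0 = 1 := by
    rw [coeff_zero_eq_eval_zero]; simp [Q, hm.ne']
  have hstep : ∀ n, P.natDegree < n + d →
      a (n + d) = -∑ i ∈ range d, Q.coeff (d - i) * a (n + i) := fun n hn => by
    have h1 := congrArg (PowerSeries.coeff (n + d)) h
    rw [coeff_coe, coeff_eq_zero_of_natDegree_lt hn, PowerSeries.coeff_mul,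
      Finset.Nat.sum_antidiagonal_eq_sum_range_succ_mk, Finset.sum_range_succ, Finset.range_eq_Ico,
      ← Finset.sum_Ico_consecutive _ (Nat.zero_le n) (by omega), Finset.sum_eq_zero fun i hi => ?_,
      zero_add, Finset.sum_Ico_eq_sum_range, Nat.add_sub_cancel_left, PowerSeries.coeff_mk,
      coeff_coe, Nat.sub_self, hQ0, mul_one] at h1
    · rw [eq_neg_iff_add_eq_zero, add_comm]
      refine Eq.trans ?_ h1
      congr 1
      refine Finset.sum_congr rfl fun i hi => ?_
      simp only [mem_range] at hi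
      rw [PowerSeries.coeff_mk, coeff_coe, show n + d - (n + i) = d - i by omega, mul_comm]
    · simp only [mem_Ico] at hi
      rw [coeff_coe, coeff_eq_zero_of_natDegree_lt (by omega), mul_zero]
  have : Finite (Set.range a) := hfin.to_subtype
  obtain ⟨n₁, n₂, hne, heq⟩ := Finite.exists_ne_map_eq_of_infinite
    fun (n : ℕ) (i : Fin d) => (⟨a (n + P.natDegree + 1 + i), Set.mem_range_self _⟩ : Set.range a)
  wlog hlt : n₁ < n₂ generalizing n₁ n₂
  · exact this n₂ n₁ hne.symm heq.symm (by omega)
  refine ⟨n₁ + P.natDegree + 1, n₂ - n₁, by omega, fun n hn => ?_⟩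
  induction n using Nat.strong_induction_on with
  | _ n ih =>
    obtain ⟨j, rfl⟩ := Nat.exists_eq_add_of_le hn
    rcases lt_or_ge j d with hj | hj
    · have := congrArg Subtype.val (congrFun heq ⟨j, hj⟩)
      simp only at this
      rw [this]
      congr 1
      omega
    obtain ⟨i, rfl⟩ := Nat.exists_eq_add_of_le' hj
    rw [show n₁ + P.natDegree + 1 + (i + d) + (n₂ - n₁) = n₂ + P.natDegree + 1 + i + d by omega,
      show n₁ + P.natDegree + 1 + (i + d) = n₁ + P.natDegree + 1 + i + d by omega,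
      hstep _ (by omega), hstep _ (by omega)]
    refine congrArg Neg.neg (Finset.sum_congr rfl fun l hl => ?_)
    simp only [mem_range] at hl
    rw [← ih (n₁ + P.natDegree + 1 + i + l) (by omega) (by omega)]
    congr 2
    omega

end Fermat.Agent.PolyaCarlson
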