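import Mathlib.Analysis.Complex.Basic
import Mathlib.Data.Nat.Choose.Central
import Mathlib.Data.Nat.Choose.Sum
import Mathlib.Algebra.Polynomial.Monic
import Mathlib.Analysis.SpecificLimits.Normed
import Mathlib.Topology.Algebra.Polynomial

/-!
# A small monic polynomial on a cut disc

On `‖w‖ ≤ 1`, `re w ≤ c < 1` some monic polynomial is less than `1` in absolute value: the
transfinite diameter of this set is less than one.
-/

set_option autoImplicit false

noncomputable section

open Polynomial Finset Filter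
open scoped Topology ComplexConjugate

namespace Fermat.Agent.PolyaCarlson

/-- The lower half of the binomial expansion of `(1 + w) ^ (2 m)`. -/
def halfSum (m : ℕ) (w : ℂ) : ℂ :=
  ∑ k ∈ range m, ((2 * m).choose k : ℂ) * w ^ k

theorem two_re_halfSum {m : ℕ} {w : ℂ} (hw : ‖w‖ = 1) :
    2 * (conj (w ^ m) * halfSum m w).re = (‖1 + w‖ ^ 2) ^ m - ((2 * m).choose m : ℝ) := by
  have hwc : conj w * w = 1 := by rw [Complex.conj_mul', hw]; simp
  have hwm : conj w ^ m * w ^ m = 1 := by rw [← mul_pow, hwc, one_pow]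
  have hpow : ∀ a b : ℕ, a ≤ b → w ^ b * conj w ^ a = w ^ (b - a) := fun a b hab => by
    obtain ⟨c, rfl⟩ := Nat.exists_eq_add_of_le hab
    rw [Nat.add_sub_cancel_left, pow_add, mul_right_comm, ← mul_pow, mul_comm w, hwc, one_pow,
      one_mul]
  have hc : w ^ (2 * m) * conj (halfSum m w) =
      ∑ k ∈ range m, ((2 * m).choose k : ℂ) * w ^ (2 * m - k) := by
    simp only [halfSum, map_sum, map_mul, map_pow, map_natCast, Finset.mul_sum]
    refine Finset.sum_congr rfl fun k hk => ?_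
    rw [← hpow k (2 * m) (by simp only [mem_range] at hk; omega)]
    ring
  have hsum : (1 + w) ^ (2 * m) =
      halfSum m w + (((2 * m).choose m : ℂ) * w ^ m + w ^ (2 * m) * conj (halfSum m w)) := by
    rw [hc, add_comm (1 : ℂ) w, add_pow, halfSum]
    simp only [one_pow, mul_one]
    rw [show 2 * m + 1 = m + (1 + m) by omega, Finset.sum_range_add, Finset.sum_range_add,
      Finset.sum_range_one, add_zero]
    congr 1
    · exact Finset.sum_congr rfl fun k _ => mul_comm _ _
    congr 1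
    · exact mul_comm _ _
    rw [← Finset.sum_range_reflect (fun k => ((2 * m).choose k : ℂ) * w ^ (2 * m - k))]
    refine Finset.sum_congr rfl fun k hk => ?_
    simp only [mem_range] at hk
    rw [show 2 * m - (m - 1 - k) = m + (1 + k) by omega,
      ← Nat.choose_symm (show m + (1 + k) ≤ 2 * m by omega),
      show 2 * m - (m + (1 + k)) = m - 1 - k by omega, mul_comm]
  have hn : (((‖1 + w‖ ^ 2) ^ m : ℝ) : ℂ) = conj w ^ m * (1 + w) ^ (2 * m) := by
    push_cast
    rw [← Complex.mul_conj', map_add, map_one, pow_mul, ← mul_pow]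
    congr 1
    linear_combination (-(1 + w)) * hwc
  apply Complex.ofReal_injective
  rw [Complex.ofReal_sub, hn, hsum, Complex.ofReal_natCast, Complex.ofReal_mul,
    Complex.re_eq_add_conj, map_mul, Complex.conj_conj, map_pow]
  push_cast
  linear_combination ((2 * m).choose m : ℂ) * hwm.symm + w ^ m * conj (halfSum m w) * hwm.symm

/-- The disc cut by a vertical line. -/
def cutDisc (c : ℝ) : Set ℂ :=
  {w | ‖w‖ ≤ 1 ∧ w.re ≤ c}

theorem isCompact_cutDisc (c : ℝ) : IsCompact (cutDisc c) := by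
  refine Metric.isCompact_of_isClosed_isBounded
    ((isClosed_le continuous_norm continuous_const).inter
      (isClosed_le Complex.continuous_re continuous_const)) ?_
  exact (Metric.isBounded_closedBall (x := (0 : ℂ)) (r := 1)).subset fun w hw => by
    simpa using hw.1

theorem exists_small_monic {c : ℝ} (hc : c < 1) :
    ∃ P : ℂ[X], P.Monic ∧ 0 < P.natDegree ∧ ∀ w ∈ cutDisc c, ‖P.eval w‖ < 1 := by
  set q : ℝ := max ((2 + 2 * c) / 4) 0
  have hq0 : 0 ≤ q := le_max_right _ _
  have hq : q < 1 := max_lt (by linarith) one_pos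
  obtain ⟨m, hm0, hm⟩ : ∃ m : ℕ, 0 < m ∧ 2 * (m : ℝ) * q ^ m < 1 / 4 := by
    have h := (tendsto_self_mul_const_pow_of_lt_one hq0 hq).const_mul 2
    rw [mul_zero] at h
    obtain ⟨m, hm, hm0⟩ := ((h.eventually (gt_mem_nhds (show (0 : ℝ) < 1 / 4 by norm_num))).and
      (eventually_gt_atTop 0)).exists
    exact ⟨m, hm0, by linarith [hm]⟩
  set B : ℝ := ((2 * m).choose m : ℝ)
  have hB : 0 < B := Nat.cast_pos.2 (Nat.choose_pos (by omega))
  have hB' : (4 : ℝ) ^ m ≤ 2 * m * B := by
    simp only [B]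
    exact_mod_cast Nat.four_pow_le_two_mul_self_mul_centralBinom m hm0
  set g : ℂ → ℂ := fun w => (2 / B : ℝ) * halfSum m w
  have hgc : Continuous g := by
    unfold g halfSum
    fun_prop
  -- on the arc the product has real part at most `-3/4`
  have harc : ∀ w ∈ cutDisc c, ‖w‖ = 1 → (conj (w ^ m) * g w).re < -(3 / 4) := fun w hw h1 => by
    have h2 := two_re_halfSum (m := m) h1
    have h3 : (conj (w ^ m) * g w).re = (1 / B) * ((‖1 + w‖ ^ 2) ^ m - B) := by
      simp only [g]
      rw [mul_left_comm, Complex.re_ofReal_mul, ← h2]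
      ring
    have h4 : ‖1 + w‖ ^ 2 ≤ 4 * q := by
      rw [Complex.sq_norm, Complex.normSq_apply, Complex.add_re, Complex.add_im, Complex.one_re,
        Complex.one_im]
      have h5 : w.re * w.re + w.im * w.im = 1 := by
        rw [← Complex.normSq_apply, Complex.normSq_eq_norm_sq, h1, one_pow]
      nlinarith [hw.2, le_max_left ((2 + 2 * c) / 4) (0 : ℝ)]
    have h5 : (‖1 + w‖ ^ 2) ^ m ≤ 4 ^ m * q ^ m := by
      rw [← mul_pow]; exact pow_le_pow_left₀ (by positivity) h4 m
    have h6 : 4 ^ m * q ^ m < B * (1 / 4) := calc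
      _ ≤ 2 * m * B * q ^ m := mul_le_mul_of_nonneg_right hB' (pow_nonneg hq0 m)
      _ = B * (2 * m * q ^ m) := by ring
      _ < B * (1 / 4) := mul_lt_mul_of_pos_left hm hB
    rw [h3, one_div_mul_eq_div, div_lt_iff₀ hB]
    linarith
  obtain ⟨G, hG⟩ := (isCompact_cutDisc c).exists_bound_of_continuousOn hgc.continuousOn
  set K₁ := cutDisc c ∩ {w | -(1 / 2) ≤ (conj (w ^ m) * g w).re}
  have hK₁ : IsCompact K₁ := (isCompact_cutDisc c).inter_right
    (isClosed_le continuous_const (Complex.continuous_re.comp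
      ((Complex.continuous_conj.comp (continuous_pow m)).mul hgc)))
  have hlt : ∀ w ∈ K₁, ‖w‖ < 1 := fun w hw =>
    lt_of_le_of_ne hw.1.1 fun h => by
      have h1 : (-(1 / 2) : ℝ) ≤ (conj (w ^ m) * g w).re := hw.2
      linarith [harc w hw.1 h]
  have hev₁ : ∀ᶠ ε : ℝ in 𝓝 0, ∀ w ∈ K₁, ‖w ^ m + ε * g w‖ < 1 := by
    refine hK₁.eventually_forall_of_forall_eventually fun w hw => ?_
    refine ((?_ : Continuous fun z : ℝ × ℂ => ‖z.2 ^ m + z.1 * g z.2‖).tendsto (0, w)).eventually
      (gt_mem_nhds ?_)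
    · fun_prop
    · simp only [Complex.ofReal_zero, zero_mul, add_zero, norm_pow]
      exact pow_lt_one₀ (norm_nonneg w) (hlt w hw) hm0.ne'
  have hev₂ : ∀ᶠ ε : ℝ in 𝓝 0, ε * G ^ 2 < 1 / 2 :=
    ((continuous_id.mul continuous_const).tendsto' 0 0 (zero_mul _)).eventually
      (gt_mem_nhds (by norm_num))
  obtain ⟨ε, ⟨hε₁, hε₂⟩, hε⟩ := ((hev₁.and hev₂).filter_mono nhdsWithin_le_nhds |>.and
    (self_mem_nhdsWithin (s := Set.Ioi (0 : ℝ)))).exists
  replace hε : (0 : ℝ) < ε := hε
  set R : ℂ[X] := ∑ k ∈ range m, Polynomial.C (((ε * (2 / B) : ℝ) : ℂ) * (2 * m).choose k) * X ^ k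
  have hR : R.degree < m := (degree_sum_le _ _).trans_lt
    ((Finset.sup_lt_iff (WithBot.bot_lt_coe _)).2 fun j hj =>
      (degree_C_mul_X_pow_le _ _).trans_lt (Nat.cast_lt.2 (Finset.mem_range.1 hj)))
  have hmon : (X ^ m + R).Monic := monic_X_pow_add hR
  refine ⟨X ^ m + R, hmon, ?_, fun w hw => ?_⟩
  · rw [natDegree_eq_of_degree_eq_some (n := m)
      (by rw [degree_add_eq_left_of_degree_lt (by rwa [degree_X_pow]), degree_X_pow])]
    exact hm0
  have hev : (X ^ m + R).eval w = w ^ m + ε * g w := by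
    simp only [eval_add, eval_pow, eval_X, R, eval_finsetSum, eval_mul, eval_C, g, halfSum,
      Finset.mul_sum]
    congr 1
    exact Finset.sum_congr rfl fun k _ => by push_cast; ring
  rw [hev]
  by_cases hw₁ : w ∈ K₁
  · exact hε₁ w hw₁
  have hre : (conj (w ^ m) * g w).re < -(1 / 2) := not_le.1 fun h => hw₁ ⟨hw, h⟩
  have h1 : ‖w ^ m + ε * g w‖ ^ 2 < 1 := by
    have h2 : ‖w ^ m + ε * g w‖ ^ 2 =
        ‖w ^ m‖ ^ 2 + 2 * ε * (conj (w ^ m) * g w).re + ε ^ 2 * ‖g w‖ ^ 2 := by
      simp only [Complex.sq_norm, Complex.normSq_apply, Complex.add_re, Complex.add_im,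
        Complex.mul_re, Complex.mul_im, Complex.conj_re, Complex.conj_im, Complex.ofReal_re,
        Complex.ofReal_im]
      ring
    have h3 : ‖w ^ m‖ ^ 2 ≤ 1 := by
      rw [norm_pow]
      exact pow_le_one₀ (by positivity) (pow_le_one₀ (norm_nonneg w) hw.1)
    have h4 : ‖g w‖ ^ 2 ≤ G ^ 2 := pow_le_pow_left₀ (norm_nonneg _) (hG w hw) 2
    rw [h2]
    nlinarith [mul_le_mul_of_nonneg_left h4 (sq_nonneg ε)]
  exact (pow_lt_one_iff_of_nonneg (norm_nonneg _) two_ne_zero).1 h1

end Fermat.Agent.PolyaCarlson
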